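import Fermat.Agent.Wild.Binom

/-!
# Wild engine : the abstract climbing lemmas

`O` a commutative ring (`O_F`, the semilocal ring of the Gauss valuations), `π ∈ O`,
`M ⊆ O` a subring (the integral closure of `A[x]`: one *chart*), `p` a prime,
`p = π^e0 u`, `u` a unit of `M`.

* `Chart M π p` : `π ∈ M`; saturation `π a ∈ M ⇒ a ∈ M`; `p`-closedness
  `a^p ∈ M + π O ⇒ a ∈ M + π O`  (true for a normal or a nodal special fibre in char. `p`).
* `low_step`  : `y^p W ∈ M`, `y ≡ 1 mod π^j`, `p j < e0 + j`, `W ≡ 1 mod π^(pj+1)`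
                `⇒` the same with `j + 1`.
* `high_step` : the same for `p j > e0 + j`, `W ≡ 1 mod π^(e0+j+1)` (no `p`-closedness needed).
* `twist`     : `τ` trivial mod `π`, `τ ζ = ζ^e`, `l = ζ - 1`, `p ∣ e^i + f`, `y ≡ 1 mod l^i`
                `⇒ τ y * y^f ≡ 1 mod l^i π`.
* `newton`    : `W ≡ 1 mod π^n`, `n > e0`, `p (n - e0) > n` `⇒` for every `N` there is
                `h ≡ 1 mod π^(n-e0)` with `W h^p ≡ 1 mod π^N`.
-/

set_option autoImplicit false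

namespace Fermat.Agent.Wild

variable {O : Type*} [CommRing O]

/-- One chart, abstractly. -/
structure Chart (M : Subring O) (π : O) (p : ℕ) : Prop where
  pi_mem : π ∈ M
  sat : ∀ a, π * a ∈ M → a ∈ M
  pc : ∀ a d, d ∈ M → π ∣ a ^ p - d → ∃ a' ∈ M, π ∣ a - a'

variable {M : Subring O} {π : O} {p : ℕ}

theorem Chart.sat_pow (hM : Chart M π p) (n : ℕ) {a : O} (h : π ^ n * a ∈ M) : a ∈ M := by
  induction n with
  | zero => simpa using h
  | succ n ih =>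
    apply ih
    apply hM.sat
    rw [← mul_assoc, ← pow_succ']
    exact h

/-- The low step: below the critical level. -/
theorem low_step (hM : Chart M π p) (hp : p.Prime) {e0 j : ℕ} {u : O}
    (hpu : (p : O) = π ^ e0 * u) (hj1 : 1 ≤ j) (hj : p * j + 1 ≤ e0 + j) {W y : O}
    (hy : y ^ p * W ∈ M) (hy1 : π ^ j ∣ y - 1) (hW : π ^ (p * j + 1) ∣ W - 1) :
    ∃ y', y' ^ p * W ∈ M ∧ π ^ (j + 1) ∣ y' - 1 := by
  obtain ⟨c, hc⟩ := hy1
  obtain ⟨b, hb⟩ := hW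
  obtain ⟨g, hg⟩ := one_add_pow_prime hp (π ^ j * c)
  obtain ⟨k, hk⟩ : ∃ k, e0 + j = p * j + 1 + k := ⟨e0 + j - (p * j + 1), by omega⟩
  have hyc : y = 1 + π ^ j * c := by linear_combination hc
  have hpj : π ^ e0 * π ^ j = π ^ (p * j) * π * π ^ k := by
    rw [← pow_add, hk, pow_add, pow_add, pow_one]
  have hcp : (π ^ j * c) ^ p = π ^ (p * j) * c ^ p := by
    rw [mul_pow, ← pow_mul, mul_comm j p]
  -- `y^p W - 1 = π^(pj) (c^p + π r)`
  set r : O := π ^ k * u * c * (1 + π ^ j * c * g) + y ^ p * b with hr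
  have key : π ^ (p * j) * (c ^ p + π * r) = y ^ p * W - 1 := by
    have hW' : W = 1 + π ^ (p * j) * π * b := by
      rw [← pow_succ]; linear_combination hb
    have hyp : y ^ p = 1 + π ^ e0 * π ^ j * (u * c * (1 + π ^ j * c * g)) + π ^ (p * j) * c ^ p := by
      rw [hyc, hg, hcp, hpu]; ring
    rw [hpj] at hyp
    rw [hr]
    linear_combination (-1 : O) * hyp - y ^ p * hW'
  have hd : c ^ p + π * r ∈ M := by
    apply hM.sat_pow (p * j)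
    rw [key]
    exact M.sub_mem hy M.one_mem
  obtain ⟨c', hc', d, hd'⟩ := hM.pc c _ hd ⟨-r, by ring⟩
  refine ⟨y * (1 - π ^ j * c'), ?_, ?_⟩
  · have : (y * (1 - π ^ j * c')) ^ p * W = (1 - π ^ j * c') ^ p * (y ^ p * W) := by
      rw [mul_pow]; ring
    rw [this]
    exact M.mul_mem (M.pow_mem (M.sub_mem M.one_mem (M.mul_mem (M.pow_mem hM.pi_mem j) hc')) p) hy
  · obtain ⟨i, rfl⟩ : ∃ i, j = i + 1 := ⟨j - 1, by omega⟩
    refine ⟨d - π ^ i * c * c', ?_⟩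
    rw [hyc]
    have : c = c' + π * d := by linear_combination hd'
    rw [pow_succ π (i + 1)]
    linear_combination (π ^ (i + 1)) * this

/-- The high step: above the critical level. -/
theorem high_step (hM : Chart M π p) (hp : p.Prime) {e0 j : ℕ} {u u' : O}
    (hpu : (p : O) = π ^ e0 * u) (hu' : u' ∈ M) (huu : u' * u = 1)
    (hj1 : 1 ≤ j) (hj : e0 + j + 1 ≤ p * j) {W y : O}
    (hy : y ^ p * W ∈ M) (hy1 : π ^ j ∣ y - 1) (hW : π ^ (e0 + j + 1) ∣ W - 1) :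
    ∃ y', y' ^ p * W ∈ M ∧ π ^ (j + 1) ∣ y' - 1 := by
  obtain ⟨c, hc⟩ := hy1
  obtain ⟨b, hb⟩ := hW
  obtain ⟨g, hg⟩ := one_add_pow_prime hp (π ^ j * c)
  obtain ⟨k, hk⟩ : ∃ k, p * j = e0 + j + 1 + k := ⟨p * j - (e0 + j + 1), by omega⟩
  obtain ⟨i, rfl⟩ : ∃ i, j = i + 1 := ⟨j - 1, by omega⟩
  have hyc : y = 1 + π ^ (i + 1) * c := by linear_combination hc
  have hcp : (π ^ (i + 1) * c) ^ p = π ^ (e0 + (i + 1)) * π * (π ^ k * c ^ p) := by
    rw [mul_pow, ← pow_mul, mul_comm (i + 1) p, hk, pow_add, pow_add _ _ 1, pow_one]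
    ring
  set r : O := π ^ i * (u * c ^ 2 * g) + π ^ k * c ^ p + y ^ p * b with hr
  have key : π ^ (e0 + (i + 1)) * (u * c + π * r) = y ^ p * W - 1 := by
    have hW' : W = 1 + π ^ (e0 + (i + 1)) * π * b := by
      rw [← pow_succ]; linear_combination hb
    have hyp : y ^ p = 1 + π ^ (e0 + (i + 1)) * (u * c) +
        π ^ (e0 + (i + 1)) * π * (π ^ i * (u * c ^ 2 * g)) +
        π ^ (e0 + (i + 1)) * π * (π ^ k * c ^ p) := by
      rw [hyc, hg, hcp, hpu, pow_add π e0 (i + 1), pow_succ π i]; ring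
    rw [hr]
    linear_combination (-1 : O) * hyp - y ^ p * hW'
  have hd : u * c + π * r ∈ M := by
    apply hM.sat_pow (e0 + (i + 1))
    rw [key]
    exact M.sub_mem hy M.one_mem
  set c' : O := u' * (u * c + π * r) with hc'
  have hc'M : c' ∈ M := M.mul_mem hu' hd
  refine ⟨y * (1 - π ^ (i + 1) * c'), ?_, ?_⟩
  · have : (y * (1 - π ^ (i + 1) * c')) ^ p * W = (1 - π ^ (i + 1) * c') ^ p * (y ^ p * W) := by
      rw [mul_pow]; ring
    rw [this]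
    exact M.mul_mem
      (M.pow_mem (M.sub_mem M.one_mem (M.mul_mem (M.pow_mem hM.pi_mem (i + 1)) hc'M)) p) hy
  · refine ⟨-(u' * r) - π ^ i * c * c', ?_⟩
    have : c' = c + π * (u' * r) := by
      rw [hc']; linear_combination (c : O) * huu
    rw [hyc, pow_succ π (i + 1)]
    linear_combination (-(π ^ (i + 1))) * this

/-- The twist: `τ y * y^f ≡ 1 mod l^i π`. -/
theorem twist (τ : O →+* O) (hτ : ∀ a, π ∣ τ a - a) {ζ l : O} (hl : l = ζ - 1) (hπl : π ∣ l)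
    (hπp : π ∣ (p : O)) {e f i : ℕ} (hτζ : τ ζ = ζ ^ e) (hi1 : 1 ≤ i) (hef : p ∣ e ^ i + f)
    {y : O} (hy : l ^ i ∣ y - 1) : l ^ i * π ∣ τ y * y ^ f - 1 := by
  obtain ⟨c, hc⟩ := hy
  obtain ⟨l', hl'⟩ := hπl
  obtain ⟨p', hp'⟩ := hπp
  obtain ⟨k, hk⟩ := hef
  obtain ⟨c₂, hc₂⟩ := hτ c
  obtain ⟨s, hs⟩ := geom_sum_eq_add ζ e
  obtain ⟨s₂, hs₂⟩ := add_mul_pow_eq (e : O) l s i
  obtain ⟨g, hg⟩ := one_add_pow_two f (l ^ i * c)
  obtain ⟨i', rfl⟩ : ∃ i', i = i' + 1 := ⟨i - 1, by omega⟩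
  have hyc : y = 1 + l ^ (i' + 1) * c := by linear_combination hc
  have hτl : τ l = l * ((e : O) + l * s) := by
    rw [hl, map_sub, map_one, hτζ, ← hs, mul_comm, geom_sum_mul]
  have hτy : τ y = 1 + l ^ (i' + 1) * (((e : O) ^ (i' + 1) + l * s₂) * (c + π * c₂)) := by
    rw [hyc, map_add, map_one, map_mul, map_pow, hτl, mul_pow, hs₂]
    have : τ c = c + π * c₂ := by linear_combination hc₂
    rw [this]; ring
  have hk' : ((e : O) ^ (i' + 1) + f) = π * p' * k := by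
    have : ((e ^ (i' + 1) + f : ℕ) : O) = ((p * k : ℕ) : O) := by rw [hk]
    push_cast at this
    rw [this, hp']
  have hyf : y ^ f = 1 + f * (l ^ (i' + 1) * c) + (l ^ (i' + 1) * c) ^ 2 * g := by
    rw [hyc, hg]
  -- abbreviations
  set Lp : O := l ^ (i' + 1) with hLp
  have hLl : Lp = π * (l' * l ^ i') := by
    rw [hLp, pow_succ]; nth_rewrite 2 [hl']; ring
  refine ⟨p' * k * c + (e : O) ^ (i' + 1) * c₂ + l' * s₂ * (c + π * c₂) +
      (l' * l ^ i') * c ^ 2 * g +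
      (((e : O) ^ (i' + 1) + l * s₂) * (c + π * c₂)) *
        (l' * l ^ i') * (f * c + Lp * c ^ 2 * g), ?_⟩
  rw [hτy, hyf]
  have e1 : l * s₂ = π * (l' * s₂) := by rw [hl']; ring
  linear_combination (Lp * c) * hk' + (Lp * (c + π * c₂)) * e1 +
    (Lp * c ^ 2 * g + Lp * (((e : O) ^ (i' + 1) + l * s₂) * (c + π * c₂)) *
      (f * c + Lp * c ^ 2 * g)) * hLl

/-- One Newton step. -/
theorem newton_step (hp : p.Prime) {e0 n : ℕ} {u u' : O} (hpu : (p : O) = π ^ e0 * u)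
    (huu : u' * u = 1) (hn : e0 < n) (hn2 : n + 1 ≤ p * (n - e0)) {W : O} (hW : π ^ n ∣ W - 1) :
    ∃ h, π ^ (n - e0) ∣ h - 1 ∧ π ^ (n + 1) ∣ W * h ^ p - 1 := by
  obtain ⟨b, hb⟩ := hW
  obtain ⟨m, rfl⟩ : ∃ m, n = e0 + (m + 1) := ⟨n - e0 - 1, by omega⟩
  have hm : e0 + (m + 1) - e0 = m + 1 := by omega
  rw [hm] at hn2 ⊢
  obtain ⟨k, hk⟩ : ∃ k, p * (m + 1) = e0 + (m + 1) + 1 + k :=
    ⟨p * (m + 1) - (e0 + (m + 1) + 1), by omega⟩
  set s : O := π ^ (m + 1) * (u' * b) with hs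
  obtain ⟨g, hg⟩ := one_add_pow_prime hp (-s)
  have hps : (p : O) * s = π ^ (e0 + (m + 1)) * b := by
    rw [hpu, hs, pow_add]; linear_combination (π ^ e0 * π ^ (m + 1) * b) * huu
  have hsp : (-s) ^ p = π ^ (e0 + (m + 1) + 1) * (π ^ k * (-(u' * b)) ^ p) := by
    rw [hs, ← mul_neg, mul_pow, ← pow_mul, mul_comm (m + 1) p, hk, pow_add _ _ k]; ring
  refine ⟨1 + -s, ⟨-(u' * b), by rw [hs]; ring⟩, ?_⟩
  set P : O := π ^ (e0 + (m + 1)) with hP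
  have hP1 : π ^ (e0 + (m + 1) + 1) = P * π := by rw [hP, pow_succ]
  have hPπ : P = π * π ^ (e0 + m) := by rw [hP, ← add_assoc, pow_succ]; ring
  have hsπ : s = π * (π ^ m * (u' * b)) := by rw [hs, pow_succ]; ring
  have hW' : W = 1 + P * b := by linear_combination hb
  rw [hP1] at hsp ⊢
  refine ⟨-(π ^ (e0 + m) * b ^ 2) + (1 + P * b) * (b * (π ^ m * (u' * b)) * g +
    π ^ k * (-(u' * b)) ^ p), ?_⟩
  rw [hg, hsp, hW']
  have h2 : (p : O) * (-s) ^ 2 * g = P * π * (b * (π ^ m * (u' * b)) * g) := by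
    have : (p : O) * (-s) ^ 2 * g = ((p : O) * s) * s * g := by ring
    rw [this, hps]
    nth_rewrite 1 [hsπ]
    ring
  have h1 : (p : O) * (-s) = -(P * b) := by rw [mul_neg, hps]
  rw [h1, h2]
  linear_combination (-(P * b ^ 2)) * hPπ

/-- Newton iteration. -/
theorem newton (hp : p.Prime) {e0 n : ℕ} {u u' : O} (hpu : (p : O) = π ^ e0 * u)
    (huu : u' * u = 1) (hn : e0 < n) (hn2 : n + 1 ≤ p * (n - e0)) {W : O} (hW : π ^ n ∣ W - 1)
    (N : ℕ) : ∃ h, π ^ (n - e0) ∣ h - 1 ∧ π ^ (n + N) ∣ W * h ^ p - 1 := by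
  induction N with
  | zero => exact ⟨1, by simp, by simpa using hW⟩
  | succ N ih =>
    obtain ⟨h, hh1, hh2⟩ := ih
    have h2 : n + N + 1 ≤ p * (n + N - e0) := by
      have : p * (n + N - e0) = p * (n - e0) + p * N := by
        rw [← Nat.mul_add]; congr 1; omega
      have hp2 := hp.two_le
      nlinarith
    obtain ⟨h', hh1', hh2'⟩ := newton_step hp hpu huu (by omega : e0 < n + N) h2 hh2
    refine ⟨h * h', ?_, ?_⟩
    · have h3 : π ^ (n - e0) ∣ h' - 1 := (pow_dvd_pow π (by omega)).trans hh1'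
      have : h * h' - 1 = (h - 1) * h' + (h' - 1) := by ring
      rw [this]
      exact dvd_add (Dvd.dvd.mul_right hh1 _) h3
    · have : W * (h * h') ^ p - 1 = W * h ^ p * h' ^ p - 1 := by ring
      rw [this, ← add_assoc]
      exact hh2'

/-- Climbing below the critical level `J` (`e0 = (p-1) J`). -/
theorem climb_low (hM : Chart M π p) (hp : p.Prime) {J : ℕ} {u : O}
    (hpu : (p : O) = π ^ ((p - 1) * J) * u) {W y₁ : O}
    (hy : y₁ ^ p * W ∈ M) (hy1 : π ∣ y₁ - 1) (hW : π ^ (p * J) ∣ W - 1) (j : ℕ) (hj1 : 1 ≤ j)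
    (hjJ : j ≤ J) : ∃ y, y ^ p * W ∈ M ∧ π ^ j ∣ y - 1 := by
  induction j, hj1 using Nat.le_induction with
  | base => exact ⟨y₁, hy, by simpa using hy1⟩
  | succ j hj1 ih =>
    obtain ⟨y, h1, h2⟩ := ih (by omega)
    obtain ⟨q, rfl⟩ : ∃ q, p = q + 1 := ⟨p - 1, by have := hp.pos; omega⟩
    have hq : 1 ≤ q := by have := hp.two_le; omega
    have hlt : j + 1 ≤ J := hjJ
    refine low_step hM hp hpu hj1 ?_ h1 h2 ((pow_dvd_pow π ?_).trans hW)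
    · simp only [Nat.add_sub_cancel]
      nlinarith
    · nlinarith

/-- Climbing above the critical level. -/
theorem climb_high (hM : Chart M π p) (hp : p.Prime) {J : ℕ} {u u' : O}
    (hpu : (p : O) = π ^ ((p - 1) * J) * u) (hu' : u' ∈ M) (huu : u' * u = 1) {W y₁ : O} {n : ℕ}
    (hy : y₁ ^ p * W ∈ M) (hy1 : π ^ (J + 1) ∣ y₁ - 1) (hW : π ^ ((p - 1) * J + n) ∣ W - 1)
    (j : ℕ) (hj1 : J + 1 ≤ j) (hjn : j ≤ n) : ∃ y, y ^ p * W ∈ M ∧ π ^ j ∣ y - 1 := by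
  induction j, hj1 using Nat.le_induction with
  | base => exact ⟨y₁, hy, hy1⟩
  | succ j hj1 ih =>
    obtain ⟨y, h1, h2⟩ := ih (by omega)
    obtain ⟨q, rfl⟩ : ∃ q, p = q + 1 := ⟨p - 1, by have := hp.pos; omega⟩
    have hq : 1 ≤ q := by have := hp.two_le; omega
    refine high_step hM hp hpu hu' huu (by omega) ?_ h1 h2 ((pow_dvd_pow π (by omega)).trans hW)
    simp only [Nat.add_sub_cancel]
    nlinarith

/-- `y ≡ 1 mod π^n`, `(p-1) n ≥ e0`  `⇒`  `y^p ≡ 1 mod π^(e0+n)`. -/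
theorem pow_sub_one_dvd (hp : p.Prime) {e0 n : ℕ} {u : O} (hpu : (p : O) = π ^ e0 * u)
    (hn : e0 + n ≤ p * n) {y : O} (hy : π ^ n ∣ y - 1) : π ^ (e0 + n) ∣ y ^ p - 1 := by
  obtain ⟨c, hc⟩ := hy
  obtain ⟨g, hg⟩ := one_add_pow_prime hp (π ^ n * c)
  obtain ⟨k, hk⟩ : ∃ k, p * n = e0 + n + k := ⟨p * n - (e0 + n), by omega⟩
  have hyc : y = 1 + π ^ n * c := by linear_combination hc
  have hcp : (π ^ n * c) ^ p = π ^ (e0 + n) * (π ^ k * c ^ p) := by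
    rw [mul_pow, ← pow_mul, mul_comm n p, hk, pow_add _ _ k]; ring
  refine ⟨u * c + u * c * (π ^ n * c) * g + π ^ k * c ^ p, ?_⟩
  rw [hyc, hg, hcp, hpu, pow_add π e0 n]
  ring

/-- Parameters of the wild engine: `p = π^((p-1)J) u`, `ζ - 1 = π^J v`, `u`, `v` units. -/
structure Params (π : O) (p J : ℕ) (ζ u u' v v' : O) : Prop where
  hp : p.Prime
  hJ : 1 ≤ J
  hpu : (p : O) = π ^ ((p - 1) * J) * u
  huu : u' * u = 1
  hl : ζ - 1 = π ^ J * v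
  hvv : v' * v = 1

section Engine

variable {J : ℕ} {ζ u u' v v' : O}

theorem Params.pi_dvd_l (P : Params π p J ζ u u' v v') : π ∣ ζ - 1 := by
  rw [P.hl]
  exact Dvd.dvd.mul_right (dvd_pow_self π (by have := P.hJ; omega)) _

theorem Params.pi_dvd_p (P : Params π p J ζ u u' v v') : π ∣ (p : O) := by
  rw [P.hpu]
  refine Dvd.dvd.mul_right (dvd_pow_self π ?_) _
  have h1 := P.hJ
  have h2 := P.hp.two_le
  have : 1 ≤ (p - 1) * J := Nat.mul_pos (by omega) h1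
  omega

theorem Params.l_pow_dvd (P : Params π p J ζ u u' v v') (i : ℕ) {a : O}
    (h : π ^ (i * J) ∣ a) : (ζ - 1) ^ i ∣ a := by
  obtain ⟨c, rfl⟩ := h
  refine ⟨v' ^ i * c, ?_⟩
  have : (v' * v) ^ i = 1 := by rw [P.hvv, one_pow]
  rw [P.hl, mul_pow, ← pow_mul, mul_comm J i]
  rw [mul_pow] at this
  linear_combination (-(π ^ (i * J) * c)) * this

theorem Params.pi_pow_dvd (P : Params π p J ζ u u' v v') (i : ℕ) {a : O}
    (h : (ζ - 1) ^ i * π ∣ a) : π ^ (i * J + 1) ∣ a := by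
  obtain ⟨c, rfl⟩ := h
  refine ⟨v ^ i * c, ?_⟩
  rw [P.hl, mul_pow, ← pow_mul, mul_comm J i, pow_succ]
  ring

theorem dvd_pow_prime_add {e f : ℕ} (hp : p.Prime) (hef : p ∣ e + f) : p ∣ e ^ p + f := by
  have : Fact p.Prime := ⟨hp⟩
  rw [← ZMod.natCast_eq_zero_iff] at hef ⊢
  push_cast at hef ⊢
  rw [ZMod.pow_card]
  exact hef

/-- **(O-level)**  `z ≡ 1 mod π^(pJ)`: for every `N` there is `h ≡ 1 mod π^(J+1)` with
`(τ z * z^f) h^p ≡ 1 mod π^N`. -/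
theorem exists_h (P : Params π p J ζ u u' v v') (τ : O →+* O) (hτ : ∀ a, π ∣ τ a - a)
    {e f : ℕ} (hτζ : τ ζ = ζ ^ e) (hef : p ∣ e + f) {z : O} (hz : π ^ (p * J) ∣ z - 1) (N : ℕ) :
    ∃ h, π ^ (J + 1) ∣ h - 1 ∧ π ^ N ∣ τ z * z ^ f * h ^ p - 1 := by
  have h1 : π ^ (p * J + 1) ∣ τ z * z ^ f - 1 :=
    P.pi_pow_dvd p (twist τ hτ rfl P.pi_dvd_l P.pi_dvd_p hτζ P.hp.pos
      (dvd_pow_prime_add P.hp hef) (P.l_pow_dvd p hz))
  obtain ⟨q, hq⟩ : ∃ q, p = q + 2 := ⟨p - 2, by have := P.hp.two_le; omega⟩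
  have e1 : p * J + 1 - (p - 1) * J = J + 1 := by
    subst hq
    have : (q + 2) * J = (q + 2 - 1) * J + J := by
      rw [show q + 2 - 1 = q + 1 by omega]; ring
    omega
  have e2 : (p - 1) * J < p * J + 1 := by
    have : (p - 1) * J ≤ p * J := Nat.mul_le_mul_right _ (by omega)
    omega
  have e3 : p * J + 1 + 1 ≤ p * (p * J + 1 - (p - 1) * J) := by
    rw [e1]; subst hq; nlinarith
  obtain ⟨h, hh1, hh2⟩ := newton P.hp P.hpu P.huu e2 e3 h1 N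
  rw [e1] at hh1
  exact ⟨h, hh1, (pow_dvd_pow π (by omega)).trans hh2⟩

/-- **(chart level)**  `z ≡ 1 mod π^(pJ)`, `y₁ ∈ I(z)`, `y₁ ≡ 1 mod π`; `h` a unit,
`h ≡ 1 mod π^(J+1)`, `V = (τ z * z^f) h^p ≡ 1 mod π^(e0+n)`.  Then there is `y ∈ I(V)`,
`y ≡ 1 mod π^n`. -/
theorem exists_y (hM : Chart M π p) (P : Params π p J ζ u u' v v') (hu' : u' ∈ M)
    (τ : O →+* O) (hτ : ∀ a, π ∣ τ a - a) (hτM : ∀ a ∈ M, τ a ∈ M)
    {e f : ℕ} (hτζ : τ ζ = ζ ^ e) (hef : p ∣ e + f) {z y₁ : O} (hz : π ^ (p * J) ∣ z - 1)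
    (hy : y₁ ^ p * z ∈ M) (hy1 : π ∣ y₁ - 1) {h h' : O} (hhh : h * h' = 1)
    (hh1 : π ^ (J + 1) ∣ h - 1) {n : ℕ} (hn : J + 1 ≤ n)
    (hV : π ^ ((p - 1) * J + n) ∣ τ z * z ^ f * h ^ p - 1) :
    ∃ y, y ^ p * (τ z * z ^ f * h ^ p) ∈ M ∧ π ^ n ∣ y - 1 := by
  obtain ⟨y, h1, h2⟩ := climb_low hM P.hp P.hpu hy hy1 hz J P.hJ le_rfl
  -- the twist
  have h3 : π ^ (J + 1) ∣ τ y * y ^ f - 1 := by
    have := P.pi_pow_dvd 1 (twist τ hτ rfl P.pi_dvd_l P.pi_dvd_p hτζ le_rfl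
      (by simpa using hef) (P.l_pow_dvd 1 (by simpa using h2)))
    simpa using this
  have h4 : (τ y * y ^ f * h') ^ p * (τ z * z ^ f * h ^ p) ∈ M := by
    have e1 : (τ y * y ^ f * h') ^ p * (τ z * z ^ f * h ^ p) =
        τ (y ^ p * z) * (y ^ p * z) ^ f * (h * h') ^ p := by
      rw [map_mul, map_pow]; ring
    rw [e1, hhh, one_pow, mul_one]
    exact M.mul_mem (hτM _ h1) (M.pow_mem h1 f)
  have h5 : π ^ (J + 1) ∣ τ y * y ^ f * h' - 1 := by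
    have e1 : τ y * y ^ f * h' - 1 = h' * ((τ y * y ^ f - 1) - (h - 1)) := by
      linear_combination hhh
    rw [e1]
    exact Dvd.dvd.mul_left (dvd_sub h3 hh1) _
  exact climb_high hM P.hp P.hpu hu' P.huu h4 h5 hV n hn le_rfl

/-- Final form: `y^p V = 1 + p² π γ`, `γ ∈ M`. -/
theorem exists_gamma (hM : Chart M π p) (P : Params π p J ζ u u' v v') (hu' : u' ∈ M)
    {V y : O} (hy : y ^ p * V ∈ M) (hy1 : π ^ ((p - 1) * J + 1) ∣ y - 1)
    (hV : π ^ ((p - 1) * J + ((p - 1) * J + 1)) ∣ V - 1) :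
    ∃ γ ∈ M, y ^ p * V = 1 + (p : O) ^ 2 * π * γ := by
  set e0 := (p - 1) * J with he0
  have h1 : π ^ (e0 + (e0 + 1)) ∣ y ^ p - 1 := by
    refine pow_sub_one_dvd P.hp P.hpu ?_ hy1
    have := P.hp.two_le
    nlinarith
  have h2 : π ^ (e0 + (e0 + 1)) ∣ y ^ p * V - 1 := by
    have : y ^ p * V - 1 = (y ^ p - 1) * V + (V - 1) := by ring
    rw [this]
    exact dvd_add (Dvd.dvd.mul_right h1 _) hV
  obtain ⟨γ, hγ⟩ := h2
  have hγM : γ ∈ M := by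
    apply hM.sat_pow (e0 + (e0 + 1))
    rw [← hγ]
    exact M.sub_mem hy M.one_mem
  refine ⟨u' ^ 2 * γ, M.mul_mem (M.pow_mem hu' 2) hγM, ?_⟩
  have h3 : (u' * u) ^ 2 = 1 := by rw [P.huu, one_pow]
  rw [P.hpu]
  have h4 : π ^ (e0 + (e0 + 1)) = π ^ e0 * π ^ e0 * π := by
    rw [pow_add, pow_succ]; ring
  rw [h4] at hγ
  linear_combination hγ - (π ^ e0 * π ^ e0 * π * γ) * h3

end Engine

end Fermat.Agent.Wild
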