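import Fermat.Agent.SS.G2.CT
import Fermat.Agent.Wild.Abs

/-!
# Wild engine : what one chart provides

From a special fibre model `D : SS.G2.SFData` (normal or nodal special fibre) in residue
characteristic `p`:

* `pc_F`    : `p`-closedness: `a ∈ O_F`, `a^p ∈ M + π O_F ⇒ a ∈ M + π O_F`;
* `start_F` : `z ≡ 1 mod π O_F`, `div z ∈ p Div` (`InvK`) `⇒` there is `y ∈ I_p(z)`, `y ≡ 1 mod π O_F`
              (uses the chart theorem `SS.G2.CT`, which holds for every `m > 0`).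
-/

set_option autoImplicit false

open Polynomial

namespace Fermat.Agent.Wild

open Fermat.Agent.Crux.G Fermat.Agent.SS.G2

variable {A : Type*} [CommRing A] [IsDomain A] {π : A}
variable {F : Type*} [Field F] [Algebra A[X] F]
variable {k 𝒜 Z : Type*} [Field k] [CommRing 𝒜] [Algebra k[X] 𝒜] [CommRing Z]

theorem isPiOL_natCast (hπ : Prime π) {p : ℕ} (hpπ : π ∣ (p : A)) : IsPiOL π (p : F) := by
  obtain ⟨p', hp'⟩ := hpπ
  refine ⟨algebraMap A[X] F (C p'), isOL_algebraMap hπ _, ?_⟩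
  rw [Algebra.smul_def, ← map_mul, ← C_mul, ← hp', ← map_natCast (algebraMap A[X] F)]
  simp

/-- `p = 0` in `Z`. -/
theorem natCast_Z_eq_zero (hπ : Prime π) (D : SFData hπ F k 𝒜 Z) {p : ℕ} (hpπ : π ∣ (p : A)) :
    (p : Z) = 0 := by
  have h1 : D.red (p : OF hπ F) = 0 := by
    rw [D.red_ker]
    simpa using isPiOL_natCast (F := F) hπ hpπ
  have h2 : (p : D.Ct) = 0 := by
    apply Subtype.ext
    rw [map_natCast] at h1
    simpa using h1
  rw [← map_natCast D.p₁, h2, map_zero]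

/-- Frobenius is injective on `Z`. -/
theorem eq_of_pow_eq_Z (hπ : Prime π) (D : SFData hπ F k 𝒜 Z) {p : ℕ} (hp : p.Prime)
    (hpπ : π ∣ (p : A)) {a b : Z} (h : a ^ p = b ^ p) : a = b := by
  obtain ⟨r, hr⟩ := exists_add_pow_prime_eq hp (a - b) b
  rw [natCast_Z_eq_zero hπ D hpπ, sub_add_cancel, h] at hr
  have h0 : (a - b) ^ p = 0 := by linear_combination -hr
  have := D.reduced
  exact sub_eq_zero.1 (IsReduced.eq_zero _ ⟨p, h0⟩)

/-- **`p`-closedness** of `M + π O_F`. -/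
theorem pc_F (hπ : Prime π) (D : SFData hπ F k 𝒜 Z) {p : ℕ} (hp : p.Prime)
    (hpπ : π ∣ (p : A)) {a d : F} (ha : IsOL π a) (hd : IsIntegral A[X] d)
    (h : IsPiOL π (a ^ p - d)) : ∃ a', IsIntegral A[X] a' ∧ IsPiOL π (a - a') := by
  set y : OF hπ F := ⟨a, ha⟩ with hy
  set yd : OF hπ F := ⟨d, IsOL.of_isIntegral hπ hd⟩ with hyd
  have h1 : D.red y ^ p = D.red yd := by
    rw [← map_pow, ← sub_eq_zero, ← map_sub, D.red_ker]
    exact h
  have hdC : D.red yd ∈ D.Ct := D.int_mem yd hd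
  have hyC : D.red y ∈ D.Ct := D.root y p hp.pos (by rw [h1]; exact hdC)
  set c : D.Ct := ⟨D.red y, hyC⟩ with hc
  have h2 : D.p₁ (c ^ p) = D.p₂ (c ^ p) := by
    rw [D.eq_iff]
    exact ⟨yd, hd, by rw [← h1]; rfl⟩
  rw [map_pow, map_pow] at h2
  obtain ⟨y', hy', hy'c⟩ := (D.eq_iff c).1 (eq_of_pow_eq_Z hπ D hp hpπ h2)
  refine ⟨y', hy', ?_⟩
  have h3 : D.red (y - y') = 0 := by rw [map_sub, hy'c, sub_self]
  exact (D.red_ker _).1 h3

variable [IsDiscreteValuationRing A]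
variable (E : Type*) [Field E] [Algebra A[X] E] [IsFractionRing A[X] E] [CharZero E]
  [Algebra E F] [IsScalarTower A[X] E F] [FiniteDimensional E F]

include E in
/-- **Start**: `z ≡ 1`, `div z ∈ p Div` `⇒` `1` lifts to the twisted lattice `I_p(z)`. -/
theorem start_F (hπ : Irreducible π) (D : SFData hπ.prime F k 𝒜 Z) {p : ℕ} (hp : p.Prime)
    (hpπ : π ∣ (p : A)) {z : F} (hz : IsPiOL π (z - 1)) (hinv : InvK π p z) :
    ∃ y, IsTw (A := A) p z y ∧ IsPiOL π (y - 1) := by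
  have hP := hπ.prime
  have hz0 : z ≠ 0 := by
    rintro rfl
    apply not_isPiOL_one (F := F) E hπ
    simpa using hz.neg
  have hzO : IsOL π z := by
    have := (IsPiOL.isOL hz).add hP (isOL_one (L := F) hP)
    simpa using this
  have hzO' : IsOL π z⁻¹ := IsOL.inv_of_sub_one hP hz
  have hz' : IsPiOL π (z⁻¹ - 1) := by
    have : z⁻¹ - 1 = z⁻¹ * (-(z - 1)) := by field_simp; ring
    rw [this]
    exact IsPiOL.mul_left hP hzO' hz.neg
  have r1 : D.red ⟨z, hzO⟩ = 1 := by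
    rw [← sub_eq_zero, ← map_one D.red, ← map_sub, D.red_ker]
    exact hz
  have r2 : D.red ⟨z⁻¹, hzO'⟩ = 1 := by
    rw [← sub_eq_zero, ← map_one D.red, ← map_sub, D.red_ker]
    exact hz'
  obtain ⟨ξ, hξ, -⟩ := CT E hπ D hp.pos hz0 hzO hzO' (by rw [r1]; exact D.Ct.one_mem)
    (by rw [r2]; exact D.Ct.one_mem) hinv
  -- `ξ = 1`
  have hξ1 : (ξ : Z) = 1 := by
    obtain ⟨c, hc1, hc2⟩ := D.surj ξ 1
    obtain ⟨y, hy, hyc⟩ := (hξ c).2 (by rw [hc1, hc2, mul_one])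
    have h2 : D.p₁ (c ^ p) = D.p₂ (c ^ p) := by
      rw [D.eq_iff]
      refine ⟨y ^ p * (⟨z, hzO⟩ : OF hP F), (show IsIntegral A[X] ((y : F) ^ p * z) from hy), ?_⟩
      rw [map_mul, map_pow, r1, mul_one, hyc]
      rfl
    rw [map_pow, map_pow, hc1, hc2] at h2
    exact eq_of_pow_eq_Z hP D hp hpπ h2
  obtain ⟨y, hy, hyc⟩ := (hξ 1).2 (by rw [map_one, map_one, hξ1, mul_one])
  refine ⟨y, hy, ?_⟩
  have h3 : D.red (y - 1) = 0 := by
    rw [map_sub, hyc, map_one]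
    simp
  exact (D.red_ker _).1 h3

end Fermat.Agent.Wild
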