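import Fermat.Agent.SS.G2.EndCore
import Fermat.Agent.Wild.Chart

/-!
# Wild engine : the end game, wild Kummer extension of degree `p`

`L = F(w)`, `w^p = V`, `[L:F] = p`, `π ∣ p`, `V ≡ 1 mod π O_F`;
`y0^p V = 1 + p² π γ0`, `γ0 ∈ M(x)`; `yinf^p V = 1 + p² π γinf`, `γinf ∈ M(x⁻¹)`;
`y0 - yinf ∈ p π O_F`; (H0) for `L`: contradiction.

PROOF.  `T = y0 w`, `S = ∑_{i<p} T^i`, `a = S/p`.  `S² - p S = (T^p - 1) G` (`geom_sq_sub`), so
`a² - a = π γ0 G`: `a` is integral over `A[x]` and idempotent mod `π`.  The same for `b` in the chart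
`x⁻¹`; `b - a = p⁻¹ ∑ (yinf^i - y0^i) w^i ∈ π O_L`.  `SS.G2.core`: `a ≡ 0` or `a ≡ 1`.
But `Tr_{L/F} a = 1`, `Tr_{L/F} (a - 1) = 1 - p`, and `1 ∉ π O_F`.
-/

set_option autoImplicit false
set_option linter.style.haveILetI false
set_option linter.unusedSectionVars false

open Polynomial

namespace Fermat.Agent.Wild

open Fermat.Agent.Crux.G Fermat.Agent.SS.G2

/-- `a = p⁻¹ ∑ T^i` is integral and `a² - a = ϖ γ G` when `T^p = 1 + p² ϖ γ`. -/
theorem idem_int {R B : Type*} [CommRing R] [Field B] [Algebra R B] [CharZero B] {p : ℕ}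
    (hp : p ≠ 0) {T γ ϖ : B} (hT : T ^ p = 1 + (p : B) ^ 2 * ϖ * γ) (hγ : IsIntegral R γ)
    (hϖ : IsIntegral R ϖ) :
    IsIntegral R ((p : B)⁻¹ * ∑ i ∈ Finset.range p, T ^ i) ∧
    ∃ G : B, IsIntegral R G ∧ ((p : B)⁻¹ * ∑ i ∈ Finset.range p, T ^ i) ^ 2
      - (p : B)⁻¹ * ∑ i ∈ Finset.range p, T ^ i = ϖ * G := by
  have hpB : (p : B) ≠ 0 := Nat.cast_ne_zero.2 hp
  have hTint : IsIntegral R T := by
    apply IsIntegral.of_pow (Nat.pos_of_ne_zero hp)
    rw [hT]
    exact isIntegral_one.add ((((isIntegral_natCast (R := R) (B := B) p).pow 2).mul hϖ).mul hγ)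
  set S : B := ∑ i ∈ Finset.range p, T ^ i with hS
  set G : B := ∑ i ∈ Finset.range p, ∑ k ∈ Finset.range i, T ^ k with hG
  have hGint : IsIntegral R G :=
    IsIntegral.sum _ fun i _ => IsIntegral.sum _ fun k _ => hTint.pow k
  have h1 : S ^ 2 - p * S = (T ^ p - 1) * G := geom_sq_sub T p
  have h2 : ((p : B)⁻¹ * S) ^ 2 - (p : B)⁻¹ * S = ϖ * (γ * G) := by
    have : ((p : B)⁻¹ * S) ^ 2 - (p : B)⁻¹ * S = ((p : B)⁻¹) ^ 2 * (S ^ 2 - p * S) := by
      field_simp
    rw [this, h1, hT]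
    field_simp
    ring
  refine ⟨?_, γ * G, hγ.mul hGint, h2⟩
  have : Nontrivial R := by
    by_contra hR
    rw [not_nontrivial_iff_subsingleton] at hR
    have : (algebraMap R B 0) = algebraMap R B 1 := congrArg _ (Subsingleton.elim _ _)
    simp at this
  have hmon : (X ^ 2 - X : R[X]).Monic := by
    apply monic_X_pow_sub
    rw [degree_X]
    norm_num
  refine IsIntegral.of_aeval_monic hmon ?_ (x := (p : B)⁻¹ * S) ?_
  · rw [natDegree_sub_eq_left_of_natDegree_lt (by simp)]
    simp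
  · simp only [map_sub, map_pow, aeval_X]
    rw [h2]
    exact hϖ.mul (hγ.mul hGint)

section chart

variable {A : Type*} [CommRing A] [IsDomain A] [IsDiscreteValuationRing A] {π : A}
variable {E F L : Type*} [Field E] [Field F] [Field L]
  [Algebra A[X] E] [IsFractionRing A[X] E] [CharZero E]
  [Algebra A[X] F] [Algebra E F] [IsScalarTower A[X] E F] [FiniteDimensional E F]
  [Algebra A[X] L] [Algebra E L] [IsScalarTower A[X] E L] [FiniteDimensional E L]
  [Algebra F L] [IsScalarTower E F L] [IsScalarTower A[X] F L]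

omit [IsDomain A] [IsDiscreteValuationRing A] in
/-- the trace `L → F` maps `π O_L` to `π O_F`. -/
theorem isPiOL_trace_FL [FiniteDimensional F L] {y : L} (hy : IsPiOL π y) :
    IsPiOL π (Algebra.trace F L y) := by
  obtain ⟨z, hz, rfl⟩ := hy
  refine ⟨Algebra.trace F L z, ?_, ?_⟩
  · obtain ⟨s, hs, h⟩ := hz
    refine ⟨s, hs, ?_⟩
    have h1 : s • Algebra.trace F L z = Algebra.trace F L (s • z) := by
      rw [← algebraMap_smul F s z, map_smul, Algebra.smul_def s, smul_eq_mul]
    rw [h1]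
    exact Algebra.isIntegral_trace h
  · rw [← algebraMap_smul F (C π : A[X]) z, map_smul, Algebra.smul_def (C π : A[X]), smul_eq_mul]

variable (E) in
include E in
/-- `a = p⁻¹ ∑ (y w)^i` is neither `≡ 0` nor `≡ 1`. -/
theorem idem_ne (hπ : Irreducible π) {p : ℕ} (hp : p.Prime) (hpπ : π ∣ (p : A)) {w : L} {V y : F}
    (hw : w ^ p = algebraMap F L V) (hdeg : Module.finrank F L = p)
    (hli : LinearIndependent F (fun j : Fin p => w ^ (j : ℕ))) :
    ¬ IsPiOL π ((p : L)⁻¹ * ∑ i ∈ Finset.range p, (algebraMap F L y * w) ^ i) ∧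
    ¬ IsPiOL π ((p : L)⁻¹ * ∑ i ∈ Finset.range p, (algebraMap F L y * w) ^ i - 1) := by
  have hcF : CharZero F := charZero_of_injective_algebraMap (algebraMap E F).injective
  have hpF : (p : F) ≠ 0 := Nat.cast_ne_zero.2 hp.ne_zero
  have : FiniteDimensional F L := FiniteDimensional.right E F L
  have htr : Algebra.trace F L ((p : L)⁻¹ * ∑ i ∈ Finset.range p, (algebraMap F L y * w) ^ i)
      = 1 := by
    have h1 : (p : L)⁻¹ * ∑ i ∈ Finset.range p, (algebraMap F L y * w) ^ i =
        ∑ i ∈ Finset.range p, ((p : F)⁻¹ * y ^ i) • w ^ i := by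
      rw [Finset.mul_sum]
      refine Finset.sum_congr rfl fun i _ => ?_
      rw [Algebra.smul_def, map_mul, map_inv₀, map_natCast, map_pow, mul_pow, mul_assoc]
    rw [h1, map_sum, Finset.sum_eq_single 0]
    · rw [map_smul, pow_zero, pow_zero, mul_one, ← map_one (algebraMap F L),
        Algebra.trace_algebraMap, hdeg, smul_eq_mul, nsmul_eq_mul, mul_one, inv_mul_cancel₀ hpF]
    · intro i hi hi0
      rw [map_smul, kummer_trace_pow_eq_zero hw hdeg hli (Nat.pos_of_ne_zero hi0)
        (Finset.mem_range.1 hi), smul_zero]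
    · intro h
      exact absurd (Finset.mem_range.2 hp.pos) h
  constructor
  · intro h
    have := isPiOL_trace_FL (F := F) h
    rw [htr] at this
    exact not_isPiOL_one (F := F) E hπ this
  · intro h
    have h2 := isPiOL_trace_FL (F := F) h
    rw [map_sub, htr, ← map_one (algebraMap F L), Algebra.trace_algebraMap, hdeg, nsmul_eq_mul,
      mul_one] at h2
    have h3 := h2.add hπ.prime (isPiOL_natCast (F := F) hπ.prime hpπ)
    rw [sub_add_cancel] at h3
    exact not_isPiOL_one (F := F) E hπ h3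

end chart

/-- **The wild end game.** -/
theorem wild_end {A E F L : Type*} [CommRing A] [IsDomain A] [IsDiscreteValuationRing A]
    [Field E] [Field F] [Field L] [CharZero E] [Algebra A E]
    [Algebra E F] [FiniteDimensional E F]
    [Algebra E L] [Algebra A L] [IsScalarTower A E L] [FiniteDimensional E L]
    [Algebra F L] [IsScalarTower E F L]
    (π : A) (hπ : Irreducible π) (x : E) (hx : Transcendental A x)
    (hgen : ∀ c : E, ∃ p q : A[X], q ≠ 0 ∧ c * aeval x q = aeval x p)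
    (p : ℕ) (hp : p.Prime) (hpπ : π ∣ (p : A))
    (V : F) (hV : IsOLx π x V) (y0 yinf γ0 γinf c : F)
    (h0 : y0 ^ p * V = 1 + (p : F) ^ 2 * algebraMap E F (algebraMap A E π) * γ0)
    (hγ0 : IntX A x γ0)
    (hinf : yinf ^ p * V = 1 + (p : F) ^ 2 * algebraMap E F (algebraMap A E π) * γinf)
    (hγinf : IntX A x⁻¹ γinf)
    (hy0 : IsOLx π x y0) (hyinf : IsOLx π x yinf) (hc : IsOLx π x c)
    (hyy : yinf - y0 = (p : F) * algebraMap E F (algebraMap A E π) * c)
    (w : L) (hw : w ^ p = algebraMap F L V) (hdeg : Module.finrank F L = p)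
    (hli : LinearIndependent F (fun j : Fin p => w ^ (j : ℕ)))
    (H0 : ∀ z : L, IsIntegral A z → z ∈ Set.range (algebraMap A L)) : False := by
  classical
  have hP := hπ.prime
  have hcL : CharZero L := charZero_of_injective_algebraMap (algebraMap E L).injective
  have hpL : (p : L) ≠ 0 := Nat.cast_ne_zero.2 hp.ne_zero
  set ϖ : L := algebraMap E L (algebraMap A E π) with hϖ
  have hϖF : algebraMap F L (algebraMap E F (algebraMap A E π)) = ϖ := by
    rw [hϖ, ← IsScalarTower.algebraMap_apply]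
  set a : L := (p : L)⁻¹ * ∑ i ∈ Finset.range p, (algebraMap F L y0 * w) ^ i with ha_def
  set b : L := (p : L)⁻¹ * ∑ i ∈ Finset.range p, (algebraMap F L yinf * w) ^ i with hb_def
  have hT0 : (algebraMap F L y0 * w) ^ p = 1 + (p : L) ^ 2 * ϖ * algebraMap F L γ0 := by
    rw [mul_pow, hw, ← map_pow, ← map_mul, h0]
    simp [hϖF]
  have hTinf : (algebraMap F L yinf * w) ^ p = 1 + (p : L) ^ 2 * ϖ * algebraMap F L γinf := by
    rw [mul_pow, hw, ← map_pow, ← map_mul, hinf]
    simp [hϖF]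
  -- `b - a`
  have hba_eq : b - a = ϖ * ∑ i ∈ Finset.range p,
      algebraMap F L ((∑ k ∈ Finset.range i, yinf ^ k * y0 ^ (i - 1 - k)) * c) * w ^ i := by
    rw [hb_def, ha_def, ← mul_sub, ← Finset.sum_sub_distrib, Finset.mul_sum, Finset.mul_sum]
    refine Finset.sum_congr rfl fun i _ => ?_
    have h1 : yinf ^ i - y0 ^ i = (∑ k ∈ Finset.range i, yinf ^ k * y0 ^ (i - 1 - k)) *
        ((p : F) * algebraMap E F (algebraMap A E π) * c) := by
      rw [← hyy, (Commute.all yinf y0).geom_sum₂_mul]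
    have h2 : (algebraMap F L yinf * w) ^ i - (algebraMap F L y0 * w) ^ i =
        algebraMap F L (yinf ^ i - y0 ^ i) * w ^ i := by
      rw [mul_pow, mul_pow, map_sub, map_pow, map_pow]; ring
    rw [h2, h1, map_mul, map_mul, map_mul, map_mul, hϖF, map_natCast]
    field_simp
  -- chart `x`
  have key : IntX A x a ∧ IsPiOLx π x (a ^ 2 - a) ∧ ¬ IsPiOLx π x a ∧ ¬ IsPiOLx π x (a - 1) ∧
      IsPiOLx π x (b - a) ∧ IsPiOLx π x (a - a) := by
    letI := algE (A := A) x
    letI := algL (A := A) F x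
    letI := algL (A := A) L x
    haveI := isScalarTower_alg (A := A) (L := F) x
    haveI := isScalarTower_alg (A := A) (L := L) x
    haveI := isScalarTower_algL (A := A) (F := F) (L := L) x
    haveI := isFractionRing_algE hx hgen
    have hϖC : ϖ = algebraMap A[X] L (C π) := by
      show ϖ = algebraMap E L (aeval x (C π))
      rw [aeval_C]
    have hγ0' : IsIntegral A[X] γ0 := hγ0
    have hVO : IsOL π V := hV
    have hy0' : IsOL π y0 := hy0
    have hyinf' : IsOL π yinf := hyinf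
    have hc' : IsOL π c := hc
    have hwO : IsOL π w := kummer_isOL_w hp.ne_zero hw hVO
    obtain ⟨h1, G, hG, h2⟩ := idem_int (R := A[X]) hp.ne_zero hT0 hγ0'.algebraMap
      (by rw [hϖC]; exact isIntegral_algebraMap)
    obtain ⟨h3, h4⟩ := idem_ne E hπ hp hpπ (y := y0) hw hdeg hli
    refine ⟨h1, ?_, h3, h4, ?_, ?_⟩
    · show IsPiOL π (a ^ 2 - a)
      rw [h2, hϖC, ← Algebra.smul_def]
      exact (IsOL.of_isIntegral hP hG).C_smul
    · show IsPiOL π (b - a)
      rw [hba_eq, hϖC, ← Algebra.smul_def]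
      refine (IsOL.sum hP _ _ fun i _ => ?_).C_smul
      refine IsOL.mul hP (IsOL.algebraMap_FL (IsOL.mul hP (IsOL.sum hP _ _ fun k _ => ?_) hc'))
        (hwO.pow hP i)
      exact (hyinf'.pow hP k).mul hP (hy0'.pow hP _)
    · show IsPiOL π (a - a)
      rw [sub_self]
      exact isPiOL_zero hP
  obtain ⟨ha, hee, hne0, hne1, hbe, hae⟩ := key
  -- chart `x⁻¹`
  have hb : IntX A x⁻¹ b := by
    letI := algL (A := A) F x⁻¹
    letI := algL (A := A) L x⁻¹
    haveI := isScalarTower_algL (A := A) (F := F) (L := L) x⁻¹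
    have hϖC : ϖ = algebraMap A[X] L (C π) := by
      show ϖ = algebraMap E L (aeval x⁻¹ (C π))
      rw [aeval_C]
    have hγinf' : IsIntegral A[X] γinf := hγinf
    exact (idem_int (R := A[X]) hp.ne_zero hTinf hγinf'.algebraMap
      (by rw [hϖC]; exact isIntegral_algebraMap)).1
  rcases core π hπ x hx hgen H0 a a b (IntX.isOLx hπ ha) hee ha hae hb hbe with h | h
  · exact hne0 h
  · exact hne1 h

end Fermat.Agent.Wild
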