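import Fermat.Agent.SS.G2.Main
import Fermat.Agent.Wild.End

/-!
# Wild engine : the main theorem  (`m = p =` residue characteristic)

**Theorem G2p.**  `A` a DVR with uniformiser `π ∣ p`, `ζ ∈ A` a primitive `p`-th root of unity,
`E = Frac A[x]`, `F/E` finite, char. 0, `𝕃 ⊇ F` a field in which `A` is integrally closed
(`K((q))`).  Assume
* special fibre models `D0`, `Dinf` of the two charts `x`, `x⁻¹` (`SS.G2.SFDatax`: normal or nodal
  special fibre; exactly the data consumed by `SS.G2.theoremG2`);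
* `τ : F → F` semilinear over `τA : A → A`, `τ x = x`, `τ` trivial on `O_F / π` ("inertia"),
  `τ ζ = ζ^e`, `p ∣ e + f`;
* `z ≡ 1 mod (ζ - 1)^p O_F`   ("depth `≥ p/(p-1)` at all Gauss valuations");
* `1 ∈ I_K(z) I_K(z⁻¹)` in both charts   ("`div z ∈ p Div`");
* `τ z * z^f` has a `p`-th root `v` in `𝕃`.
Then `v ∈ F`:  `τ z ≡ z^e` modulo `p`-th powers of `F`.

So inertia acts through the mod `p` cyclotomic character on the classes of depth `≥ p/(p-1)`; in
particular on the classes which are `p`-th powers in the henselisations of all Gauss valuations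
("split classes").
-/

set_option autoImplicit false
set_option linter.style.haveILetI false
set_option linter.unusedSectionVars false

open Polynomial

namespace Fermat.Agent.Wild

open Fermat.Agent.Crux.G Fermat.Agent.SS.G2

/-- The parameters `J, u, v` in a DVR. -/
theorem exists_params {A : Type*} [CommRing A] [IsDomain A] [IsDiscreteValuationRing A] {π : A}
    (hπ : Irreducible π) {p : ℕ} (hp : p.Prime) (hpπ : π ∣ (p : A)) {ζ : A}
    (hζ : IsPrimitiveRoot ζ p) : ∃ (J : ℕ) (u u' v v' : A), Params π p J ζ u u' v v' := by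
  have h1 : ζ - 1 ≠ 0 := sub_ne_zero.2 (hζ.ne_one hp.one_lt)
  obtain ⟨J, v, hv⟩ := IsDiscreteValuationRing.eq_unit_mul_pow_irreducible h1 hπ
  obtain ⟨w, hw⟩ := associated_prime_sub_one_pow hp hζ
  refine ⟨J, (v : A) ^ (p - 1) * ((w⁻¹ : Aˣ) : A), ((v⁻¹ : Aˣ) : A) ^ (p - 1) * (w : A), v,
    ((v⁻¹ : Aˣ) : A), hp, ?_, ?_, ?_, ?_, ?_⟩
  · rcases Nat.eq_zero_or_pos J with rfl | h
    · exfalso
      rw [pow_zero, mul_one] at hv
      have h2 : IsUnit ((p : A) * w) := by rw [hw, hv]; exact v.isUnit.pow _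
      exact hπ.not_isUnit (isUnit_of_dvd_unit hpπ (isUnit_of_mul_isUnit_left h2))
    · exact h
  · have : (p : A) = (ζ - 1) ^ (p - 1) * ((w⁻¹ : Aˣ) : A) := by
      rw [← hw, mul_assoc, Units.mul_inv, mul_one]
    rw [this, hv, mul_pow, ← pow_mul, mul_comm J (p - 1)]
    ring
  · have e1 : ((v⁻¹ : Aˣ) : A) ^ (p - 1) * (v : A) ^ (p - 1) = 1 := by
      rw [← mul_pow, Units.inv_mul, one_pow]
    have e2 : (w : A) * ((w⁻¹ : Aˣ) : A) = 1 := Units.mul_inv w
    linear_combination ((w : A) * ((w⁻¹ : Aˣ) : A)) * e1 + e2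
  · rw [hv]; ring
  · exact Units.inv_mul v

theorem Params.map {A O : Type*} [CommRing A] [CommRing O] (φ : A →+* O) {π ζ u u' v v' : A}
    {p J : ℕ} (P : Params π p J ζ u u' v v') :
    Params (φ π) p J (φ ζ) (φ u) (φ u') (φ v) (φ v') where
  hp := P.hp
  hJ := P.hJ
  hpu := by rw [← map_natCast φ, P.hpu, map_mul, map_pow]
  huu := by rw [← map_mul, P.huu, map_one]
  hl := by rw [← map_one φ, ← map_sub, P.hl, map_mul, map_pow]
  hvv := by rw [← map_mul, P.hvv, map_one]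

section Top

variable {A E F : Type*} [CommRing A] [IsDomain A] [IsDiscreteValuationRing A]
    [Field E] [Field F] [CharZero E] [Algebra A E] [Algebra E F] [Algebra A F]
    [IsScalarTower A E F] [FiniteDimensional E F]

/-- `O_F` as a subring of `F`. -/
noncomputable def OFx {π : A} (hπ : Irreducible π) (x : E) (F : Type*) [Field F] [Algebra E F] : Subring F :=
  letI := algL (A := A) F x
  (OF hπ.prime F).toSubring

theorem mem_OFx {π : A} (hπ : Irreducible π) (x : E) (y : F) :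
    y ∈ OFx hπ x F ↔ IsOLx π x y := Iff.rfl

/-- `M(x')` as a subring of `O_F`. -/
noncomputable def MOx {π : A} (hπ : Irreducible π) (x x' : E) : Subring (OFx hπ x F) :=
  (Mx A F x').toSubring.comap (OFx hπ x F).subtype

theorem mem_MOx {π : A} (hπ : Irreducible π) (x x' : E) (y : OFx hπ x F) :
    y ∈ MOx hπ x x' ↔ IntX A x' (y : F) := Iff.rfl

/-- `A → O_F`. -/
noncomputable def iA {π : A} (hπ : Irreducible π) (x : E) : A →+* OFx hπ x F :=
  (algebraMap A F).codRestrict (OFx hπ x F)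
    (fun a => IntX.isOLx hπ (EndAux.intX_algebraMap x a))

theorem coe_iA {π : A} (hπ : Irreducible π) (x : E) (a : A) :
    ((iA (F := F) hπ x a : OFx hπ x F) : F) = algebraMap A F a := rfl

theorem iA_dvd_iff {π : A} (hπ : Irreducible π) (x : E) (a : OFx hπ x F) :
    iA hπ x π ∣ a ↔ IsPiOLx π x (a : F) := by
  rw [isPiOLx_iff]
  constructor
  · rintro ⟨c, rfl⟩
    exact ⟨c, c.2, by
      rw [← IsScalarTower.algebraMap_apply]; rfl⟩
  · rintro ⟨c, hc, h⟩
    refine ⟨⟨c, hc⟩, Subtype.ext ?_⟩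
    rw [h, ← IsScalarTower.algebraMap_apply]; rfl

theorem pc_x {k 𝒜 Z : Type*} [Field k] [CommRing 𝒜] [Algebra k[X] 𝒜] [CommRing Z]
    {π : A} (hπ : Irreducible π) {x : E} (D : SFDatax hπ.prime x F k 𝒜 Z) {p : ℕ} (hp : p.Prime)
    (hpπ : π ∣ (p : A)) {a d : F} (ha : IsOLx π x a) (hd : IntX A x d)
    (h : IsPiOLx π x (a ^ p - d)) : ∃ a', IntX A x a' ∧ IsPiOLx π x (a - a') := by
  letI := algL (A := A) F x
  exact pc_F hπ.prime D hp hpπ ha hd h

theorem start_x {k 𝒜 Z : Type*} [Field k] [CommRing 𝒜] [Algebra k[X] 𝒜] [CommRing Z]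
    {π : A} (hπ : Irreducible π) {x : E} (hx : Transcendental A x)
    (hgen : ∀ c : E, ∃ p q : A[X], q ≠ 0 ∧ c * aeval x q = aeval x p)
    (D : SFDatax hπ.prime x F k 𝒜 Z) {p : ℕ} (hp : p.Prime)
    (hpπ : π ∣ (p : A)) {z : F} (hz : IsPiOLx π x (z - 1)) (hinv : InvKx π x p z) :
    ∃ y, IsTwx A x p z y ∧ IsPiOLx π x (y - 1) := by
  letI := algE (A := A) x
  letI := algL (A := A) F x
  haveI := isScalarTower_alg (A := A) (L := F) x
  haveI := isFractionRing_algE hx hgen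
  exact start_F E hπ D hp hpπ hz hinv

theorem intX_tau (τ : F →+* F) (τA : A →+* A)
    (hτA : ∀ a, τ (algebraMap A F a) = algebraMap A F (τA a)) (x : E)
    (hτx : τ (algebraMap E F x) = algebraMap E F x) {y : F} (hy : IntX A x y) :
    IntX A x (τ y) := by
  letI := algL (A := A) F x
  have hτ : ∀ (r : A[X]) (y : F), τ (r • y) = (r.map τA) • τ y := by
    intro r y
    rw [smul_eq_x, smul_eq_x, map_mul, tau_aeval τ τA hτA x hτx]
  exact semi_isIntegral τ τA hτ hy

/-- The abstract chart attached to a coordinate `x'` (`= x` or `x⁻¹`). -/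
theorem chart_x {k 𝒜 Z : Type*} [Field k] [CommRing 𝒜] [Algebra k[X] 𝒜] [CommRing Z]
    {π : A} (hπ : Irreducible π) (x : E) {x' : E} (hx' : Transcendental A x')
    (hgen' : ∀ c : E, ∃ p q : A[X], q ≠ 0 ∧ c * aeval x' q = aeval x' p)
    (hO : ∀ y : F, IsOLx π x' y ↔ IsOLx π x y) (hPi : ∀ y : F, IsPiOLx π x' y ↔ IsPiOLx π x y)
    (D : SFDatax hπ.prime x' F k 𝒜 Z) {p : ℕ} (hp : p.Prime) (hpπ : π ∣ (p : A)) :
    Chart (MOx (F := F) hπ x x') (iA hπ x π) p where
  pi_mem := EndAux.intX_algebraMap x' π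
  sat := by
    intro a ha
    have h1 : IntX A x' (algebraMap A F π * (a : F)) := ha
    have h2 : IsPiOLx π x' (algebraMap A F π * (a : F)) := by
      rw [hPi]
      exact (iA_dvd_iff hπ x (iA hπ x π * a)).1 (dvd_mul_right _ _)
    obtain ⟨z, hz, h⟩ := intX_of_smul hπ hx' hgen' h1 h2
    rw [← IsScalarTower.algebraMap_apply] at h
    have hπF : algebraMap A F π ≠ 0 := by
      rw [IsScalarTower.algebraMap_apply A E F, Ne, map_eq_zero]
      intro h0
      have := (transcendental_iff.1 hx') (C π) (by rw [aeval_C, h0])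
      exact hπ.ne_zero (C_eq_zero.1 this)
    have : (a : F) = z := mul_left_cancel₀ hπF h
    rw [mem_MOx, this]
    exact hz
  pc := by
    intro a d hd h
    obtain ⟨a', ha', h'⟩ := pc_x hπ D hp hpπ ((hO _).2 a.2) hd
      ((hPi _).2 ((iA_dvd_iff hπ x _).1 h))
    refine ⟨⟨a', (hO _).1 (IntX.isOLx hπ ha')⟩, ha', ?_⟩
    rw [iA_dvd_iff]
    exact (hPi _).1 h'

end Top

/-- **Theorem G2p** (the wild engine). -/
theorem theoremG2p {A E F 𝕃 : Type*} [CommRing A] [IsDomain A] [IsDiscreteValuationRing A]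
    [Field E] [Field F] [Field 𝕃] [CharZero E] [Algebra A E] [Algebra E F] [Algebra A F]
    [IsScalarTower A E F] [FiniteDimensional E F]
    [Algebra F 𝕃] [Algebra E 𝕃] [IsScalarTower E F 𝕃] [Algebra A 𝕃] [IsScalarTower A E 𝕃]
    {k 𝒜 Z k' 𝒜' Z' : Type*} [Field k] [CommRing 𝒜] [Algebra k[X] 𝒜] [CommRing Z]
    [Field k'] [CommRing 𝒜'] [Algebra k'[X] 𝒜'] [CommRing Z']
    (π : A) (hπ : Irreducible π) (x : E) (hx : Transcendental A x)
    (hgen : ∀ c : E, ∃ p q : A[X], q ≠ 0 ∧ c * aeval x q = aeval x p)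
    (H0 : ∀ z : 𝕃, IsIntegral A z → z ∈ Set.range (algebraMap A 𝕃))
    (p : ℕ) (hp : p.Prime) (hpπ : π ∣ (p : A)) (ζ : A) (hζ : IsPrimitiveRoot ζ p)
    (τ : F →+* F) (τA : A →+* A) (hτA : ∀ a, τ (algebraMap A F a) = algebraMap A F (τA a))
    (hτx : τ (algebraMap E F x) = algebraMap E F x)
    (hτ : ∀ y : F, IsOLx π x y → IsPiOLx π x (τ y - y))
    (e f : ℕ) (hτζ : τA ζ = ζ ^ e) (hef : p ∣ e + f)
    (D0 : SFDatax hπ.prime x F k 𝒜 Z) (Dinf : SFDatax hπ.prime x⁻¹ F k' 𝒜' Z')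
    (z c : F) (hc : IsOLx π x c) (hz : z - 1 = algebraMap A F (ζ - 1) ^ p * c)
    (hinv0 : InvKx π x p z) (hinvinf : InvKx π x⁻¹ p z)
    (v : 𝕃) (hv : v ^ p = algebraMap F 𝕃 (τ z * z ^ f)) :
    ∃ h : F, algebraMap F 𝕃 h = v := by
  have hx0 : x ≠ 0 := by
    rintro rfl
    exact hx (isAlgebraic_zero)
  have hxi := transcendental_inv hx
  have hgeni := hgen_inv hx hgen
  have hP := hπ.prime
  have hτxi : τ (algebraMap E F x⁻¹) = algebraMap E F x⁻¹ := by
    rw [map_inv₀, map_inv₀, hτx]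
  -- the abstract setting
  obtain ⟨J, u, u', v₀, v₀', PA⟩ := exists_params hπ hp hpπ hζ
  have P := PA.map (iA (F := F) hπ x)
  set πO := iA (F := F) hπ x π with hπO
  have hM0 : Chart (MOx (F := F) hπ x x) πO p :=
    chart_x hπ x hx hgen (fun _ => Iff.rfl) (fun _ => Iff.rfl) D0 hp hpπ
  have hMinf : Chart (MOx (F := F) hπ x x⁻¹) πO p :=
    chart_x hπ x hxi hgeni (isOLx_inv_iff hP hx0) (isPiOLx_inv_iff hP hx0) Dinf hp hpπ
  have hτO : ∀ y : OFx hπ x F, τ (y : F) ∈ OFx hπ x F := by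
    intro y
    have := IsOLx.add hπ (IsPiOLx.isOLx' (hτ y y.2)) y.2
    rwa [sub_add_cancel] at this
  let τO : OFx hπ x F →+* OFx hπ x F := (τ.comp (OFx hπ x F).subtype).codRestrict _ hτO
  have hτO1 : ∀ a, πO ∣ τO a - a := fun a => (iA_dvd_iff hπ x _).2 (hτ a a.2)
  have hτOζ : τO (iA hπ x ζ) = iA hπ x ζ ^ e := Subtype.ext (by
    show τ (algebraMap A F ζ) = (algebraMap A F ζ) ^ e
    rw [hτA, hτζ, map_pow])
  have hzO : IsOLx π x z := by
    have h1 : IsOLx π x (algebraMap A F (ζ - 1) ^ p * c) :=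
      IsOLx.mul' hπ (IsOLx.pow' hπ (IntX.isOLx hπ (EndAux.intX_algebraMap x _)) p) hc
    rw [← hz] at h1
    have := IsOLx.add hπ h1 (isOLx_one hπ)
    rwa [sub_add_cancel] at this
  set zO : OFx hπ x F := ⟨z, hzO⟩ with hzOdef
  have hzdvd : πO ^ (p * J) ∣ zO - 1 := by
    refine ⟨iA hπ x v₀ ^ p * ⟨c, hc⟩, Subtype.ext ?_⟩
    show z - 1 = (algebraMap A F π) ^ (p * J) * ((algebraMap A F v₀) ^ p * c)
    rw [hz, PA.hl, map_mul, map_pow, mul_pow, ← pow_mul, mul_comm J p]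
    ring
  have hz1 : IsPiOLx π x (z - 1) := by
    have h1 : πO ∣ zO - 1 := (dvd_pow_self πO (by
      have := PA.hJ
      have := hp.pos
      exact (Nat.mul_pos ‹0 < p› ‹1 ≤ J›).ne')).trans hzdvd
    exact (iA_dvd_iff hπ x _).1 h1
  -- `h`
  set e0 := (p - 1) * J with he0
  obtain ⟨h, hh1, hh2⟩ := exists_h P τO hτO1 hτOζ hef hzdvd (e0 + (e0 + 1))
  have hh1' : IsPiOLx π x ((h : F) - 1) :=
    (iA_dvd_iff hπ x (h - 1)).1 ((dvd_pow_self πO (Nat.succ_ne_zero J)).trans hh1)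
  have hh0 : (h : F) ≠ 0 := by
    intro h0
    rw [h0, zero_sub] at hh1'
    exact not_isPiOLx_one hπ hx hgen (by simpa using IsPiOLx.neg' hh1')
  set h' : OFx hπ x F := ⟨(h : F)⁻¹, isOLx_inv_of_sub_one hπ hh1'⟩ with hh'
  have hhh : h * h' = 1 := Subtype.ext (mul_inv_cancel₀ hh0)
  have hJn : J + 1 ≤ e0 + 1 := by
    have : 1 ≤ p - 1 := by have := hp.two_le; omega
    have : J ≤ (p - 1) * J := Nat.le_mul_of_pos_left J this
    omega
  -- the two charts
  obtain ⟨s0, hs0, hs01⟩ := start_x hπ hx hgen D0 hp hpπ hz1 hinv0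
  obtain ⟨si, hsi, hsi1'⟩ := start_x hπ hxi hgeni Dinf hp hpπ
    ((isPiOLx_inv_iff hP hx0 _).2 hz1) hinvinf
  have hsi1 := (isPiOLx_inv_iff hP hx0 _).1 hsi1'
  have hOL1 : ∀ s : F, IsPiOLx π x (s - 1) → IsOLx π x s := by
    intro s hs
    have := IsOLx.add hπ (IsPiOLx.isOLx' hs) (isOLx_one hπ)
    rwa [sub_add_cancel] at this
  obtain ⟨y0, hy0, hy01⟩ := exists_y hM0 P (EndAux.intX_algebraMap x u') τO hτO1
    (fun a ha => intX_tau τ τA hτA x hτx ha) hτOζ hef hzdvd
    (y₁ := ⟨s0, hOL1 s0 hs01⟩) hs0 ((iA_dvd_iff hπ x _).2 hs01) hhh hh1 hJn hh2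
  obtain ⟨yi, hyi, hyi1⟩ := exists_y hMinf P (EndAux.intX_algebraMap x⁻¹ u') τO hτO1
    (fun a ha => intX_tau τ τA hτA x⁻¹ hτxi ha) hτOζ hef hzdvd
    (y₁ := ⟨si, hOL1 si hsi1⟩) hsi ((iA_dvd_iff hπ x _).2 hsi1) hhh hh1 hJn hh2
  obtain ⟨γ0, hγ0, hγ0e⟩ := exists_gamma hM0 P (EndAux.intX_algebraMap x u') hy0 hy01 hh2
  obtain ⟨γi, hγi, hγie⟩ := exists_gamma hMinf P (EndAux.intX_algebraMap x⁻¹ u') hyi hyi1 hh2
  obtain ⟨c', hc'⟩ : πO ^ (e0 + 1) ∣ yi - y0 := by
    have : yi - y0 = (yi - 1) - (y0 - 1) := by ring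
    rw [this]
    exact dvd_sub hyi1 hy01
  have hyy : yi - y0 = (p : OFx hπ x F) * πO * (iA hπ x u' * c') := by
    rw [hc', P.hpu, pow_succ]
    linear_combination (-(πO ^ e0 * πO * c')) * P.huu
  -- back to `F`
  set V : F := τ z * z ^ f * (h : F) ^ p with hV
  have hπF : algebraMap E F (algebraMap A E π) = ((πO : OFx hπ x F) : F) := by
    rw [← IsScalarTower.algebraMap_apply]; rfl
  have hVO : IsOLx π x V := (τO zO * zO ^ f * h ^ p).2
  have e0F : (y0 : F) ^ p * V = 1 + (p : F) ^ 2 * algebraMap E F (algebraMap A E π) * γ0 := by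
    rw [hπF]
    exact congrArg Subtype.val hγ0e
  have eiF : (yi : F) ^ p * V = 1 + (p : F) ^ 2 * algebraMap E F (algebraMap A E π) * γi := by
    rw [hπF]
    exact congrArg Subtype.val hγie
  have eyy : (yi : F) - y0 = (p : F) * algebraMap E F (algebraMap A E π) *
      ((iA hπ x u' * c' : OFx hπ x F) : F) := by
    rw [hπF]
    exact congrArg Subtype.val hyy
  -- field theory
  haveI tow : IsScalarTower A F 𝕃 := IsScalarTower.of_algebraMap_eq fun a => by
    rw [IsScalarTower.algebraMap_apply A E 𝕃, IsScalarTower.algebraMap_apply E F 𝕃,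
      ← IsScalarTower.algebraMap_apply A E F]
  set z₁ : 𝕃 := v * algebraMap F 𝕃 h with hz₁def
  have hz₁ : z₁ ^ p = algebraMap F 𝕃 V := by
    rw [hz₁def, mul_pow, hv, hV, map_mul _ (τ z * z ^ f), map_pow _ (h : F)]
  have ha : ∃ h₁ : F, algebraMap F 𝕃 h₁ = z₁ := by
    by_contra hno
    have hnob : ∀ b : F, b ^ p ≠ V := by
      intro b hb
      rcases eq_or_ne b 0 with rfl | hb0
      · rw [zero_pow hp.ne_zero] at hb
        rw [← hb, map_zero] at hz₁
        exact hno ⟨0, by rw [map_zero, pow_eq_zero_iff hp.ne_zero |>.mp hz₁]⟩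
      · have hb0' : algebraMap F 𝕃 b ≠ 0 := by
          rw [Ne, map_eq_zero]; exact hb0
        have hu : (z₁ / algebraMap F 𝕃 b) ^ p = 1 := by
          rw [div_pow, hz₁, ← hb, map_pow, div_self (pow_ne_zero _ hb0')]
        have hint : IsIntegral A (z₁ / algebraMap F 𝕃 b) :=
          IsIntegral.of_pow hp.pos (by rw [hu]; exact isIntegral_one)
        obtain ⟨a, ha⟩ := H0 _ hint
        refine hno ⟨algebraMap A F a * b, ?_⟩
        rw [map_mul, ← IsScalarTower.algebraMap_apply, ha, div_mul_cancel₀ _ hb0']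
    have hirr : Irreducible (X ^ p - C V : F[X]) := X_pow_sub_C_irreducible_of_prime hp hnob
    have hmonic : (X ^ p - C V : F[X]).Monic := monic_X_pow_sub_C _ hp.ne_zero
    have hroot : aeval z₁ (X ^ p - C V : F[X]) = 0 := by
      rw [map_sub, map_pow, aeval_X, aeval_C, hz₁, sub_self]
    have hmin : minpoly F z₁ = X ^ p - C V :=
      (minpoly.eq_of_irreducible_of_monic hirr hroot hmonic).symm
    have hintz : IsIntegral F z₁ := ⟨_, hmonic, hroot⟩
    have hnd : (minpoly F z₁).natDegree = p := by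
      rw [hmin, natDegree_X_pow_sub_C]
    let L := IntermediateField.adjoin F {z₁}
    haveI : FiniteDimensional F L := IntermediateField.adjoin.finiteDimensional hintz
    haveI : IsScalarTower A E L := IsScalarTower.of_algebraMap_eq fun a => Subtype.ext (by
      show algebraMap A 𝕃 a = algebraMap E 𝕃 (algebraMap A E a)
      rw [← IsScalarTower.algebraMap_apply])
    haveI : FiniteDimensional E L := FiniteDimensional.trans E F L
    have hdeg : Module.finrank F L = p := by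
      rw [IntermediateField.adjoin.finrank hintz, hnd]
    let w : L := IntermediateField.AdjoinSimple.gen F z₁
    have hw : w ^ p = algebraMap F L V := Subtype.ext (by
      show z₁ ^ p = algebraMap F 𝕃 V
      exact hz₁)
    have hli : LinearIndependent F (fun j : Fin p => w ^ (j : ℕ)) := by
      have h1 := linearIndependent_pow (K := F) z₁
      rw [hnd] at h1
      exact LinearIndependent.of_comp (L.val.toLinearMap) h1
    have H0L : ∀ y : L, IsIntegral A y → y ∈ Set.range (algebraMap A L) := by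
      intro y hy
      haveI : IsScalarTower A L 𝕃 := IsScalarTower.of_algebraMap_eq fun a => rfl
      obtain ⟨a, ha⟩ := H0 (y : 𝕃) (hy.map (IsScalarTower.toAlgHom A L 𝕃))
      exact ⟨a, Subtype.ext ha⟩
    exact wild_end π hπ x hx hgen p hp hpπ V hVO y0 yi γ0 γi _ e0F hγ0 eiF hγi y0.2 yi.2
      (iA hπ x u' * c').2 eyy w hw hdeg hli H0L
  obtain ⟨h₁, hh₁⟩ := ha
  refine ⟨h₁ * (h : F)⁻¹, ?_⟩
  have h0 : algebraMap F 𝕃 (h : F) ≠ 0 := by simpa using hh0
  rw [map_mul, hh₁, map_inv₀, hz₁def]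
  field_simp

end Fermat.Agent.Wild
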