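import Fermat.Agent.Wild.Main

/-!
# Wild engine : `chartP`  (the Artin-Schreier normal form of a deep class in one chart)

`z = 1 + λ^p c`, `λ = ζ - 1`, `c ∈ O_F`, `1 ∈ I_K(z) I_K(z⁻¹)` in the chart `x`.  Then there are
`γ ∈ O_F` (the semilocal ring of the Gauss valuations) and `ξ ∈ M(x)` (integral over `A[x]`) with

  `(1 + λ γ)^p z = 1 + λ^p ξ`,     `ξ ≡ c + γ^p - γ  mod  π O_F`.

So, with `t^p = z`, the element `Z := ((1 + λ γ) t - 1)/λ` is a root of the monic polynomial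
`((1 + λ T)^p - 1)/λ^p - ξ ∈ M(x)[T]`, which is `≡ T^p - T - ξ` modulo `λ`  (`exists_w`: `p = λ^(p-1) w`,
`w ≡ -1 mod λ`).
-/

set_option autoImplicit false
set_option linter.style.haveILetI false
set_option linter.unusedSectionVars false

open Polynomial

namespace Fermat.Agent.Wild

open Fermat.Agent.Crux.G Fermat.Agent.SS.G2

section Abs

variable {O : Type*} [CommRing O] [IsDomain O] {M : Subring O} {π : O} {p J : ℕ}
  {ζ u u' v v' : O}

/-- `p = λ^(p-1) w` with `w ≡ -1 mod λ`. -/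
theorem Params.exists_w (P : Params π p J ζ u u' v v') (hζ : ζ ^ p = 1) (hl0 : ζ - 1 ≠ 0) :
    ∃ w s : O, (p : O) = (ζ - 1) ^ (p - 1) * w ∧ w + 1 = (ζ - 1) * s := by
  obtain ⟨g, hg⟩ := one_add_pow_prime P.hp (ζ - 1)
  obtain ⟨q, hq⟩ : ∃ q, p = q + 1 := ⟨p - 1, by have := P.hp.pos; omega⟩
  have hq' : p - 1 = q := by omega
  set l := ζ - 1 with hl
  have h1 : (1 + l) ^ p = 1 := by rw [hl, add_sub_cancel, hζ]
  -- `l^(p-1) = - p (1 + l g)`
  have h2 : l ^ q = -((p : O) * (1 + l * g)) := by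
    have h3 : l * (l ^ q + (p : O) * (1 + l * g)) = 0 := by
      have : l ^ p = l * l ^ q := by rw [hq, pow_succ]; ring
      rw [h1, this] at hg
      linear_combination -hg
    rcases mul_eq_zero.1 h3 with h | h
    · exact absurd h hl0
    · linear_combination h
  -- `p = l^(p-1) w`
  set w : O := v' ^ q * u with hw
  have h4 : (p : O) = l ^ q * w := by
    have e1 : (v' * v) ^ q = 1 := by rw [P.hvv, one_pow]
    rw [mul_pow] at e1
    have hlv : l = π ^ J * v := P.hl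
    rw [hw, hlv, mul_pow, ← pow_mul, mul_comm J q, P.hpu, hq']
    linear_combination (-(π ^ (q * J) * u)) * e1
  have hlq : l ^ q ≠ 0 := pow_ne_zero _ hl0
  refine ⟨w, -(w * g), by rw [hq']; exact h4, ?_⟩
  have h5 : l ^ q * (w + 1 - l * (-(w * g))) = 0 := by
    linear_combination (1 + l * g) * (-h4) + h2
  rcases mul_eq_zero.1 h5 with h | h
  · exact absurd h hlq
  · linear_combination h

/-- **chartP, abstract form.** -/
theorem chartP_abs (hM : Chart M π p) (P : Params π p J ζ u u' v v') (hv' : v' ∈ M)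
    (hζ : ζ ^ p = 1) (hl0 : ζ - 1 ≠ 0) {z c y₁ : O} (hz : z - 1 = (ζ - 1) ^ p * c)
    (hy : y₁ ^ p * z ∈ M) (hy1 : π ∣ y₁ - 1) :
    ∃ γ ξ : O, ξ ∈ M ∧ (1 + (ζ - 1) * γ) ^ p * z = 1 + (ζ - 1) ^ p * ξ ∧
      (ζ - 1) ∣ ξ - (c + γ ^ p - γ) := by
  have hzdvd : π ^ (p * J) ∣ z - 1 := by
    refine ⟨v ^ p * c, ?_⟩
    rw [hz, P.hl, mul_pow, ← pow_mul, mul_comm J p]
    ring
  obtain ⟨y, h1, c₁, hc₁⟩ := climb_low hM P.hp P.hpu hy hy1 hzdvd J P.hJ le_rfl
  obtain ⟨w, s, hw, hs⟩ := P.exists_w hζ hl0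
  have hlv := P.hl
  obtain ⟨l, hl⟩ : ∃ l, ζ - 1 = l := ⟨_, rfl⟩
  rw [hl] at hz hw hs hlv ⊢
  have hπJ : π ^ J = l * v' := by
    rw [hlv]; linear_combination (-(π ^ J)) * P.hvv
  obtain ⟨γ, hγ⟩ : ∃ γ, γ = v' * c₁ := ⟨_, rfl⟩
  have hyγ : y = 1 + l * γ := by
    rw [hγ, ← mul_assoc, ← hπJ]; linear_combination hc₁
  obtain ⟨g, hg⟩ := one_add_pow_prime P.hp (l * γ)
  obtain ⟨q, hq⟩ : ∃ q, p = q + 1 := ⟨p - 1, by have := P.hp.pos; omega⟩
  have hq' : p - 1 = q := by omega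
  rw [hq'] at hw
  have hlp : l ^ p = l ^ q * l := by rw [hq, pow_succ]
  have hlγ : (l * γ) ^ p = l ^ p * γ ^ p := mul_pow _ _ _
  obtain ⟨a, ha⟩ : ∃ a, a = w * γ + w * l * γ ^ 2 * g + γ ^ p := ⟨_, rfl⟩
  have hyp : (1 + l * γ) ^ p = 1 + l ^ p * a := by
    rw [hg, hw, ha, hlγ]
    linear_combination (-(w * γ + w * l * γ ^ 2 * g)) * hlp
  obtain ⟨ξ, hξ⟩ : ∃ ξ, ξ = a + c + l ^ p * a * c := ⟨_, rfl⟩
  have hmain : (1 + l * γ) ^ p * z = 1 + l ^ p * ξ := by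
    have hz' : z = 1 + l ^ p * c := by linear_combination hz
    rw [hyp, hz', hξ]; ring
  refine ⟨γ, ξ, ?_, hmain, ?_⟩
  · -- `ξ ∈ M`
    have e1 : π ^ (p * J) * (v ^ p * ξ) = y ^ p * z - 1 := by
      rw [hyγ, hmain, hlv, mul_pow, ← pow_mul, mul_comm J p]; ring
    have h2 : v ^ p * ξ ∈ M := by
      apply hM.sat_pow (p * J)
      rw [e1]
      exact M.sub_mem h1 M.one_mem
    have e2 : ξ = v' ^ p * (v ^ p * ξ) := by
      have : (v' * v) ^ p = 1 := by rw [P.hvv, one_pow]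
      rw [mul_pow] at this
      linear_combination (-ξ) * this
    rw [e2]
    exact M.mul_mem (M.pow_mem hv' p) h2
  · refine ⟨s * γ + w * γ ^ 2 * g + l ^ q * a * c, ?_⟩
    rw [hξ, hlp]
    linear_combination γ * hs + ha

end Abs

/-- **chartP.**  The Artin-Schreier normal form of a deep class in the chart `x`. -/
theorem chartP {A E F : Type*} [CommRing A] [IsDomain A] [IsDiscreteValuationRing A]
    [Field E] [Field F] [CharZero E] [Algebra A E] [Algebra E F] [Algebra A F]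
    [IsScalarTower A E F] [FiniteDimensional E F]
    {k 𝒜 Z : Type*} [Field k] [CommRing 𝒜] [Algebra k[X] 𝒜] [CommRing Z]
    (π : A) (hπ : Irreducible π) (x : E) (hx : Transcendental A x)
    (hgen : ∀ c : E, ∃ p q : A[X], q ≠ 0 ∧ c * aeval x q = aeval x p)
    (p : ℕ) (hp : p.Prime) (hpπ : π ∣ (p : A)) (ζ : A) (hζ : IsPrimitiveRoot ζ p)
    (D : SFDatax hπ.prime x F k 𝒜 Z)
    (z c : F) (hc : IsOLx π x c) (hz : z - 1 = algebraMap A F (ζ - 1) ^ p * c)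
    (hinv : InvKx π x p z) :
    ∃ γ ξ : F, IsOLx π x γ ∧ IntX A x ξ ∧
      (1 + algebraMap A F (ζ - 1) * γ) ^ p * z = 1 + algebraMap A F (ζ - 1) ^ p * ξ ∧
      IsPiOLx π x (ξ - (c + γ ^ p - γ)) := by
  obtain ⟨J, u, u', v₀, v₀', PA⟩ := exists_params hπ hp hpπ hζ
  have P := PA.map (iA (F := F) hπ x)
  set πO := iA (F := F) hπ x π with hπO
  have hM0 : Chart (MOx (F := F) hπ x x) πO p :=
    chart_x hπ x hx hgen (fun _ => Iff.rfl) (fun _ => Iff.rfl) D hp hpπ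
  have hzO : IsOLx π x z := by
    have h1 : IsOLx π x (algebraMap A F (ζ - 1) ^ p * c) :=
      IsOLx.mul' hπ (IsOLx.pow' hπ (IntX.isOLx hπ (EndAux.intX_algebraMap x _)) p) hc
    rw [← hz] at h1
    have := IsOLx.add hπ h1 (isOLx_one hπ)
    rwa [sub_add_cancel] at this
  set zO : OFx hπ x F := ⟨z, hzO⟩ with hzOdef
  have hzO1 : zO - 1 = (iA hπ x ζ - 1) ^ p * ⟨c, hc⟩ := Subtype.ext (by
    show z - 1 = (algebraMap A F ζ - 1) ^ p * c
    rw [hz, map_sub, map_one])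
  have hzdvd : πO ∣ zO - 1 := by
    rw [hzO1]
    exact Dvd.dvd.mul_right (dvd_pow P.pi_dvd_l hp.ne_zero) _
  have hz1 : IsPiOLx π x (z - 1) := (iA_dvd_iff hπ x _).1 hzdvd
  obtain ⟨s0, hs0, hs01⟩ := start_x hπ hx hgen D hp hpπ hz1 hinv
  have hOL1 : IsOLx π x s0 := by
    have := IsOLx.add hπ (IsPiOLx.isOLx' hs01) (isOLx_one hπ)
    rwa [sub_add_cancel] at this
  have hinj : Function.Injective (algebraMap A F) := by
    rw [IsScalarTower.algebraMap_eq A E F]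
    refine (algebraMap E F).injective.comp ?_
    intro a b hab
    have := (transcendental_iff.1 hx) (C (a - b)) (by rw [aeval_C, map_sub, hab, sub_self])
    exact sub_eq_zero.1 (C_eq_zero.1 this)
  have hl0 : iA (F := F) hπ x ζ - 1 ≠ 0 := by
    intro h0
    have h1 : algebraMap A F ζ - 1 = 0 := congrArg Subtype.val h0
    rw [← map_one (algebraMap A F), ← map_sub, map_eq_zero_iff _ hinj, sub_eq_zero] at h1
    exact hζ.ne_one hp.one_lt h1
  obtain ⟨γ, ξ, hξ, h1, h2⟩ := chartP_abs hM0 P (EndAux.intX_algebraMap x v₀')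
    (by rw [← map_pow, hζ.pow_eq_one, map_one]) hl0 hzO1
    (y₁ := ⟨s0, hOL1⟩) hs0 ((iA_dvd_iff hπ x _).2 hs01)
  refine ⟨γ, ξ, γ.2, hξ, ?_, ?_⟩
  · have := congrArg Subtype.val h1
    rw [map_sub, map_one]
    exact this
  · exact (iA_dvd_iff hπ x _).1 (P.pi_dvd_l.trans h2)

end Fermat.Agent.Wild
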