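import Mathlib

/-!
# Wild engine : binomial identities and the cyclotomic uniformiser

Elementary identities in commutative rings used by the wild engine (`Wild/Abs.lean`):

* `one_add_pow_prime`   : `(1 + t)^p = 1 + p t + p t² g + t^p`;
* `one_add_pow_two`     : `(1 + t)^f = 1 + f t + t² g`;
* `geom_sum_eq_add`     : `∑_{k<e} ζ^k = e + (ζ - 1) s`;
* `associated_prime_sub_one_pow` : `p ~ (ζ - 1)^(p-1)` for a primitive `p`-th root of unity `ζ`;
* `geom_sq_sub`         : `S² - p S = (T^p - 1) G`, `S = ∑_{i<p} T^i`, `G = ∑_{i<p} ∑_{k<i} T^k`.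
-/

set_option autoImplicit false

open Finset

namespace Fermat.Agent.Wild

variable {O : Type*} [CommRing O]

/-- `(1 + t)^p = 1 + p t + p t² g + t^p`. -/
theorem one_add_pow_prime {p : ℕ} (hp : p.Prime) (t : O) :
    ∃ g : O, (1 + t) ^ p = 1 + p * t + p * t ^ 2 * g + t ^ p := by
  obtain ⟨q, rfl⟩ : ∃ q, p = q + 2 := ⟨p - 2, by have := hp.two_le; omega⟩
  have hdvd : ∀ k ∈ range q, ∃ c : ℕ, (q + 2).choose (k + 2) = (q + 2) * c := by
    intro k hk
    have hk' := mem_range.1 hk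
    exact hp.dvd_choose_self (by omega) (by omega)
  choose! c hc using hdvd
  refine ⟨∑ k ∈ range q, t ^ k * (c k : O), ?_⟩
  rw [add_comm 1 t, add_pow, sum_range_succ, sum_range_succ', sum_range_succ']
  simp only [one_pow, mul_one, Nat.choose_self, Nat.cast_one, pow_zero, Nat.choose_zero_right,
    zero_add, pow_one, Nat.choose_one_right]
  have h1 : ∑ k ∈ range q, t ^ (k + 1 + 1) * (((q + 2).choose (k + 1 + 1) : ℕ) : O) =
      ((q + 2 : ℕ) : O) * t ^ 2 * ∑ k ∈ range q, t ^ k * (c k : O) := by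
    rw [mul_sum]
    refine sum_congr rfl fun k hk => ?_
    rw [show k + 1 + 1 = k + 2 from rfl, hc k hk]
    push_cast
    ring
  rw [h1]
  push_cast
  ring

/-- `(1 + t)^f = 1 + f t + t² g`. -/
theorem one_add_pow_two (f : ℕ) (t : O) : ∃ g : O, (1 + t) ^ f = 1 + f * t + t ^ 2 * g := by
  induction f with
  | zero => exact ⟨0, by simp⟩
  | succ f ih =>
    obtain ⟨g, hg⟩ := ih
    refine ⟨g + f + t * g, ?_⟩
    rw [pow_succ, hg]
    push_cast
    ring

/-- `∑_{k<e} ζ^k = e + (ζ - 1) s`. -/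
theorem geom_sum_eq_add (ζ : O) (e : ℕ) : ∃ s : O, ∑ k ∈ range e, ζ ^ k = e + (ζ - 1) * s := by
  induction e with
  | zero => exact ⟨0, by simp⟩
  | succ e ih =>
    obtain ⟨s, hs⟩ := ih
    obtain ⟨r, hr⟩ : ζ - 1 ∣ ζ ^ e - 1 := by simpa using sub_dvd_pow_sub_pow ζ 1 e
    refine ⟨s + r, ?_⟩
    rw [sum_range_succ, hs]
    push_cast
    linear_combination hr

/-- `(a + l b)^i = a^i + l s`. -/
theorem add_mul_pow_eq (a l b : O) (i : ℕ) : ∃ s : O, (a + l * b) ^ i = a ^ i + l * s := by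
  obtain ⟨r, hr⟩ : (a + l * b) - a ∣ (a + l * b) ^ i - a ^ i := sub_dvd_pow_sub_pow _ _ i
  refine ⟨b * r, ?_⟩
  linear_combination hr

/-- `S² - p S = (T^p - 1) G`. -/
theorem geom_sq_sub (T : O) (p : ℕ) :
    (∑ i ∈ range p, T ^ i) ^ 2 - p * ∑ i ∈ range p, T ^ i =
      (T ^ p - 1) * ∑ i ∈ range p, ∑ k ∈ range i, T ^ k := by
  have h1 : (∑ i ∈ range p, T ^ i) - p = (T - 1) * ∑ i ∈ range p, ∑ k ∈ range i, T ^ k := by
    rw [mul_sum]
    have : (p : O) = ∑ i ∈ range p, (1 : O) := by simp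
    rw [this, ← sum_sub_distrib]
    refine sum_congr rfl fun i _ => ?_
    rw [mul_comm, geom_sum_mul]
  have h2 := geom_sum_mul T p
  linear_combination (∑ i ∈ range p, T ^ i) * h1 +
    (∑ i ∈ range p, ∑ k ∈ range i, T ^ k) * h2

/-- `p ~ (ζ - 1)^(p-1)`. -/
theorem associated_prime_sub_one_pow {A : Type*} [CommRing A] [IsDomain A] {p : ℕ} (hp : p.Prime)
    {ζ : A} (hζ : IsPrimitiveRoot ζ p) : Associated (p : A) ((ζ - 1) ^ (p - 1)) := by
  have : Fact p.Prime := ⟨hp⟩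
  have : NeZero p := ⟨hp.ne_zero⟩
  have h1 : (p : A) = ∏ μ ∈ primitiveRoots p A, (1 - μ) := by
    rw [← Polynomial.eval_one_cyclotomic_prime (R := A) (p := p),
      Polynomial.cyclotomic_eq_prod_X_sub_primitiveRoots hζ, Polynomial.eval_prod]
    simp
  have h2 : (ζ - 1) ^ (p - 1) = ∏ _μ ∈ primitiveRoots p A, (ζ - 1) := by
    rw [prod_const, hζ.card_primitiveRoots, Nat.totient_prime hp]
  rw [h1, h2]
  refine Associated.prod _ _ _ fun μ hμ => ?_
  have hμ' := (mem_primitiveRoots hp.pos).1 hμ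
  obtain ⟨i, -, hi, rfl⟩ := hζ.isPrimitiveRoot_iff.1 hμ'
  have := (hζ.associated_sub_one_pow_sub_one_of_coprime hi).symm
  rw [← neg_sub]
  exact this.neg_left

end Fermat.Agent.Wild
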